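/-
Programme T1a (S19), layer (A) ALG, bricks A2/A3 (helper83): abstract Galois descent by the
dual-basis / trace trick.  Mathlib only.

* `exists_lagrange` : Lagrange interpolation with coefficients in a subring: for a finite set `O` of a
  field, `θ ∈ O`, `O ⊆ S` and `(θ - η)⁻¹ ∈ S` for `η ∈ O`, `η ≠ θ`, there are `a i ∈ S` with
  `∑ a i * η ^ i = δ_{η, θ}` for `η ∈ O`.
* a group `G` acting on a field `K` by ring automorphisms and on a set `X`; `gf σ f = σ ∘ f ∘ σ⁻¹` the
  semilinear action on functions `X → K`; `H ≤ G` of finite index; `tr H f = ∑_{q ∈ G/H} gf q.out f`.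
* `gf_tr` : the trace of `f ∈ 𝔅` is invariant, if `𝔅` is a `gf`-stable additive group of functions on
  which `H` acts trivially.
* `eq_sum_tr` : `f = ∑ a i * tr (b i * f)` for a dual pair `∑ a i * σ (b i) = δ_{σ ∈ H}`.
* `eq_sum_trS` : an invariant `b = ∑ a i * w i` (`w i` invariant) equals `∑ trS (r * a i) * w i` when
  `trS r = 1`.
-/
import Mathlib

set_option autoImplicit false
set_option linter.unusedSectionVars false

noncomputable section

namespace Fermat.Agent.T1.Descent83.Abstract

open Polynomial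

/-! ### Lagrange interpolation over a subring -/

open Classical in
theorem exists_lagrange {K : Type*} [Field K] (S : Subring K) (O : Finset K) (θ : K)
    (hO : ∀ η ∈ O, η ∈ S) (hunit : ∀ η ∈ O, η ≠ θ → (θ - η)⁻¹ ∈ S) :
    ∃ (n : ℕ) (a : Fin n → K), (∀ i, a i ∈ S) ∧
      ∀ η ∈ O, ∑ i, a i * η ^ (i : ℕ) = if η = θ then 1 else 0 := by
  classical
  let P : Polynomial S := ∏ η ∈ (O.erase θ).attach,
    (C (⟨(θ - η.1)⁻¹, hunit η.1 (Finset.mem_of_mem_erase η.2) (Finset.ne_of_mem_erase η.2)⟩ : S) *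
      (X - C (⟨η.1, hO η.1 (Finset.mem_of_mem_erase η.2)⟩ : S)))
  have heval : ∀ x : K, eval₂ S.subtype x P =
      ∏ η ∈ (O.erase θ).attach, ((θ - η.1)⁻¹ * (x - η.1)) := by
    intro x
    rw [eval₂_finsetProd]
    refine Finset.prod_congr rfl fun η _ => ?_
    rw [eval₂_mul, eval₂_C, eval₂_sub, eval₂_X, eval₂_C]
    rfl
  refine ⟨P.natDegree + 1, fun i => ((P.coeff i : S) : K), fun i => (P.coeff i).2, ?_⟩
  intro η hη
  have h1 : ∑ i : Fin (P.natDegree + 1), ((P.coeff i : S) : K) * η ^ (i : ℕ) =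
      eval₂ S.subtype η P := by
    rw [eval₂_eq_sum_range, Fin.sum_univ_eq_sum_range (fun i => ((P.coeff i : S) : K) * η ^ i)]
    rfl
  rw [h1, heval]
  split_ifs with h
  · subst h
    refine Finset.prod_eq_one fun ξ _ => ?_
    have : η - ξ.1 ≠ 0 := sub_ne_zero.mpr (Finset.ne_of_mem_erase ξ.2).symm
    exact inv_mul_cancel₀ this
  · have hmem : η ∈ O.erase θ := Finset.mem_erase.mpr ⟨h, hη⟩
    refine Finset.prod_eq_zero (Finset.mem_attach _ ⟨η, hmem⟩) ?_
    rw [sub_self, mul_zero]

/-! ### The semilinear action on functions -/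

section Action

variable {G : Type*} [Group G] {K : Type*} [Field K] [MulSemiringAction G K]

section Basic

variable {X : Type*} [SMul G X]

/-- `(σ • f) x = σ (f (σ⁻¹ x))`. -/
def gf (σ : G) (f : X → K) : X → K := fun x => σ • f (σ⁻¹ • x)

theorem gf_apply (σ : G) (f : X → K) (x : X) : gf σ f x = σ • f (σ⁻¹ • x) := rfl

theorem gf_add (σ : G) (f g : X → K) : gf σ (f + g) = gf σ f + gf σ g := by
  funext x
  rw [gf_apply, Pi.add_apply, Pi.add_apply, smul_add]
  rfl

theorem gf_zero (σ : G) : gf σ (0 : X → K) = 0 := by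
  funext x
  rw [gf_apply, Pi.zero_apply, Pi.zero_apply, smul_zero]

theorem gf_sum {ι : Type*} (s : Finset ι) (σ : G) (f : ι → X → K) :
    gf σ (∑ i ∈ s, f i) = ∑ i ∈ s, gf σ (f i) := by
  classical
  induction s using Finset.induction_on with
  | empty => rw [Finset.sum_empty, Finset.sum_empty, gf_zero]
  | insert a t hat ih => rw [Finset.sum_insert hat, Finset.sum_insert hat, gf_add, ih]

theorem gf_const_mul (σ : G) (r : K) (f : X → K) :
    gf σ (fun x => r * f x) = fun x => (σ • r) * gf σ f x := by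
  funext x
  rw [gf_apply, gf_apply, smul_mul']

end Basic

section MulAct

variable {X : Type*} [MulAction G X]

theorem gf_one (f : X → K) : gf (1 : G) f = f := by
  funext x
  rw [gf_apply, inv_one, one_smul, one_smul]

theorem gf_mul (σ τ : G) (f : X → K) : gf (σ * τ) f = gf σ (gf τ f) := by
  funext x
  rw [gf_apply, gf_apply, gf_apply, mul_inv_rev, mul_smul, mul_smul]

theorem gf_eq_iff (σ : G) (f : X → K) : gf σ f = f ↔ ∀ x, f (σ • x) = σ • f x := by
  constructor
  · intro h x
    have := congrFun h (σ • x)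
    rw [gf_apply, inv_smul_smul] at this
    exact this.symm
  · intro h
    funext x
    rw [gf_apply, ← h, smul_inv_smul]

end MulAct

/-! ### The trace -/

variable (H : Subgroup G) [Fintype (G ⧸ H)]

/-- the trace of a scalar. -/
def trS (y : K) : K :=
  ∑ q : G ⧸ H, (Quotient.out q : G) • y

theorem out_smul_eq (σ : G) (q : G ⧸ H) :
    ∃ h ∈ H, (Quotient.out (σ • q) : G) = σ * Quotient.out q * h := by
  have h1 : ((Quotient.out (σ • q) : G) : G ⧸ H) = ((σ * Quotient.out q : G) : G ⧸ H) := by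
    rw [QuotientGroup.out_eq']
    conv_lhs => rw [← QuotientGroup.out_eq' q]
    rfl
  have h2 := QuotientGroup.eq.mp h1.symm
  exact ⟨_, h2, by rw [mul_inv_cancel_left]⟩

section Stable

variable {X : Type*} [MulAction G X]

/-- the trace of a function: sum over coset representatives. -/
def tr (f : X → K) : X → K :=
  ∑ q : G ⧸ H, gf (Quotient.out q) f

variable (𝔅 : AddSubgroup (X → K)) (hstab : ∀ σ : G, ∀ f ∈ 𝔅, gf σ f ∈ 𝔅)
  (htriv : ∀ h ∈ H, ∀ f ∈ 𝔅, gf h f = f)

include hstab htriv in
theorem gf_out_smul (σ : G) (q : G ⧸ H) {f : X → K} (hf : f ∈ 𝔅) :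
    gf (Quotient.out (σ • q)) f = gf σ (gf (Quotient.out q) f) := by
  obtain ⟨h, hh, e⟩ := out_smul_eq H σ q
  rw [e, gf_mul, gf_mul, htriv h hh f hf]

include hstab in
theorem tr_mem {f : X → K} (hf : f ∈ 𝔅) : tr H f ∈ 𝔅 := by
  unfold tr
  exact AddSubgroup.sum_mem _ fun q _ => hstab _ f hf

include hstab htriv in
/-- **the trace is invariant.** -/
theorem gf_tr (σ : G) {f : X → K} (hf : f ∈ 𝔅) : gf σ (tr H f) = tr H f := by
  classical
  unfold tr
  rw [gf_sum]
  have h1 : ∀ q : G ⧸ H, gf σ (gf (Quotient.out q) f) = gf (Quotient.out (σ • q)) f :=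
    fun q => (gf_out_smul H 𝔅 hstab htriv σ q hf).symm
  simp only [h1]
  exact Equiv.sum_comp (MulAction.toPerm σ : Equiv.Perm (G ⧸ H))
    (fun q => gf (Quotient.out q) f)

open Classical in
include hstab htriv in
/-- **descent**: `f = ∑ a i * tr (b i * f)` for a dual pair. -/
theorem eq_sum_tr {n : ℕ} (a b : Fin n → K)
    (hab : ∀ σ : G, ∑ i, a i * (σ • b i) = if σ ∈ H then 1 else 0)
    {f : X → K} (hf : f ∈ 𝔅) (x : X) :
    f x = ∑ i, a i * tr H (fun x => b i * f x) x := by
  classical
  unfold tr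
  have h1 : ∀ i, a i * (∑ q : G ⧸ H, gf (Quotient.out q) (fun x => b i * f x)) x =
      ∑ q : G ⧸ H, (a i * ((Quotient.out q : G) • b i)) * gf (Quotient.out q) f x := by
    intro i
    rw [Finset.sum_apply, Finset.mul_sum]
    refine Finset.sum_congr rfl fun q _ => ?_
    rw [gf_const_mul, mul_assoc]
  simp only [h1]
  rw [Finset.sum_comm]
  have h2 : ∀ q : G ⧸ H, ∑ i, (a i * ((Quotient.out q : G) • b i)) * gf (Quotient.out q) f x =
      (if (Quotient.out q : G) ∈ H then 1 else 0) * gf (Quotient.out q) f x := by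
    intro q
    rw [← Finset.sum_mul, hab]
  simp only [h2]
  have h3 : ∀ q : G ⧸ H, (Quotient.out q : G) ∈ H ↔ q = ((1 : G) : G ⧸ H) := by
    intro q
    constructor
    · intro h
      rw [← QuotientGroup.out_eq' q]
      apply QuotientGroup.eq.mpr
      rw [mul_one]
      exact H.inv_mem h
    · rintro rfl
      have := QuotientGroup.eq.mp (QuotientGroup.out_eq' ((1 : G) : G ⧸ H))
      rw [mul_one] at this
      exact (H.inv_mem_iff).mp this
  rw [Finset.sum_eq_single ((1 : G) : G ⧸ H)]
  · rw [if_pos ((h3 _).mpr rfl), one_mul, htriv _ ((h3 _).mpr rfl) f hf]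
  · intro q _ hq
    rw [if_neg (fun h => hq ((h3 q).mp h)), zero_mul]
  · intro h
    exact absurd (Finset.mem_univ _) h

end Stable

/-! ### Traces of scalars -/

theorem smul_trS (σ : G) {y : K} (hy : ∀ h ∈ H, h • y = y) : σ • trS H y = trS H y := by
  classical
  unfold trS
  rw [Finset.smul_sum]
  have h1 : ∀ q : G ⧸ H, σ • ((Quotient.out q : G) • y) = (Quotient.out (σ • q) : G) • y := by
    intro q
    obtain ⟨h, hh, e⟩ := out_smul_eq H σ q
    rw [e, mul_smul, mul_smul, hy h hh]
  simp only [h1]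
  exact Equiv.sum_comp (MulAction.toPerm σ : Equiv.Perm (G ⧸ H))
    (fun q => (Quotient.out q : G) • y)

theorem trS_mul_of_fixed (c y : K) (hc : ∀ σ : G, σ • c = c) : trS H (c * y) = c * trS H y := by
  classical
  unfold trS
  rw [Finset.mul_sum]
  refine Finset.sum_congr rfl fun q _ => ?_
  rw [smul_mul', hc]

open Classical in
/-- summing a dual pair over the cosets: `∑ a i * trS (b i) = 1`. -/
theorem sum_mul_trS {n : ℕ} (a b : Fin n → K)
    (hab : ∀ σ : G, ∑ i, a i * (σ • b i) = if σ ∈ H then 1 else 0) :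
    ∑ i, a i * trS H (b i) = 1 := by
  classical
  unfold trS
  simp only [Finset.mul_sum]
  rw [Finset.sum_comm]
  simp only [hab]
  have h3 : ∀ q : G ⧸ H, (Quotient.out q : G) ∈ H ↔ q = ((1 : G) : G ⧸ H) := by
    intro q
    constructor
    · intro h
      rw [← QuotientGroup.out_eq' q]
      apply QuotientGroup.eq.mpr
      rw [mul_one]
      exact H.inv_mem h
    · rintro rfl
      have := QuotientGroup.eq.mp (QuotientGroup.out_eq' ((1 : G) : G ⧸ H))
      rw [mul_one] at this
      exact (H.inv_mem_iff).mp this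
  rw [Finset.sum_eq_single ((1 : G) : G ⧸ H)]
  · rw [if_pos ((h3 _).mpr rfl)]
  · intro q _ hq
    rw [if_neg (fun h => hq ((h3 q).mp h))]
  · intro h
    exact absurd (Finset.mem_univ _) h

/-- **trace one**: an invariant combination of invariant functions has trace coefficients. -/
theorem eq_sum_trS {X : Type*} [SMul G X] {ι : Type*} [Fintype ι] (a : ι → K) (w : ι → X → K) (b : X → K) (r : K)
    (hr : trS H r = 1) (hw : ∀ i (σ : G), gf σ (w i) = w i) (hb : ∀ σ : G, gf σ b = b)
    (hbw : ∀ x, b x = ∑ i, a i * w i x) (x : X) :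
    b x = ∑ i, trS H (r * a i) * w i x := by
  classical
  have h1 : b x = ∑ q : G ⧸ H, gf (Quotient.out q) (fun x => r * b x) x := by
    have h2 : ∀ q : G ⧸ H, gf (Quotient.out q) (fun x => r * b x) x =
        ((Quotient.out q : G) • r) * b x := by
      intro q
      rw [gf_const_mul, hb]
    simp only [h2]
    rw [← Finset.sum_mul]
    have : ∑ q : G ⧸ H, (Quotient.out q : G) • r = trS H r := rfl
    rw [this, hr, one_mul]
  rw [h1]
  have h3 : ∀ q : G ⧸ H, gf (Quotient.out q) (fun x => r * b x) x =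
      ∑ i, ((Quotient.out q : G) • (r * a i)) * w i x := by
    intro q
    have e : (fun x => r * b x) = ∑ i, fun x => (r * a i) * w i x := by
      funext y
      rw [Finset.sum_apply, hbw, Finset.mul_sum]
      refine Finset.sum_congr rfl fun i _ => ?_
      rw [mul_assoc]
    rw [e, gf_sum, Finset.sum_apply]
    refine Finset.sum_congr rfl fun i _ => ?_
    rw [gf_const_mul, hw]
  simp only [h3]
  rw [Finset.sum_comm]
  refine Finset.sum_congr rfl fun i _ => ?_
  unfold trS
  rw [Finset.sum_mul]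

end Action

end Fermat.Agent.T1.Descent83.Abstract
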