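/-
Programme T1a (S19), layer (A) ALG, brick A2 (helper83): unramified Galois descent
`𝒪_{ℚ_ℓ(μ_m)} → ℤ_ℓ` by the dual-basis / trace trick.

* `exists_dual_pair` : for `ℓ ∤ m` and a primitive `m`-th root of unity `ζ` there are
  `a i, b i ∈ 𝒪_{ℚ_ℓ(μ_m)}` with `∑ a i * σ (b i) = δ_{σ ζ = ζ}` (Lagrange interpolation on `μ_m`;
  distinct roots of unity of order prime to `ℓ` differ by a unit).
* `unramDescent : AlgIface47.UnramDescent ℓ` and `traceOne : AlgIface47.TraceOne ℓ`.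
-/
import Mathlib
import Fermat.Agent.T1.AlgIface47
import Fermat.Agent.T1.Descent83.Abstract
import Fermat.Agent.TW.B5.LG83B

set_option autoImplicit false
set_option linter.unusedSectionVars false
set_option linter.style.haveILetI false

noncomputable section

namespace Fermat.Agent.T1.Descent83.Unram

open Fermat.Agent.TW.B5.Iface Fermat.Agent.TW.B5.LG83W Fermat.Agent.TW.B5.LG83B
  Fermat.Agent.T1.AlgIface47 Fermat.Agent.T1.Descent83.Abstract

variable (ℓ : ℕ) [Fact ℓ.Prime]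

/-! ### Roots of unity of order prime to `ℓ` -/

theorem norm_root {m : ℕ} (hm0 : m ≠ 0) {ζ : Kbar ℓ} (hζ : ζ ^ m = 1) : ‖ζ‖ = 1 := by
  have h2 : ‖ζ‖ ^ m = 1 := by rw [← norm_pow, hζ, norm_one]
  exact (pow_eq_one_iff_of_nonneg (norm_nonneg _) hm0).1 h2

theorem norm_sub_le_max' (x y : Kbar ℓ) : ‖x - y‖ ≤ max ‖x‖ ‖y‖ := by
  have := IsUltrametricDist.norm_add_le_max x (-y)
  rwa [norm_neg, ← sub_eq_add_neg] at this

theorem norm_sub_root {m : ℕ} (hm : ¬ ℓ ∣ m) {ζ ζ' : Kbar ℓ} (hζ : ζ ^ m = 1) (hζ' : ζ' ^ m = 1)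
    (hne : ζ ≠ ζ') : ‖ζ - ζ'‖ = 1 := by
  have hm0 : m ≠ 0 := ne_zero_of_not_dvd ℓ hm
  apply le_antisymm
  · have := norm_sub_le_max' ℓ ζ ζ'
    rwa [norm_root ℓ hm0 hζ, norm_root ℓ hm0 hζ', max_self] at this
  · by_contra h
    exact hne (eq_of_norm_sub_lt_one ℓ hm hζ hζ' (lt_of_not_ge h))

theorem root_mem_intSubring {m : ℕ} (hm0 : m ≠ 0) {ζ : Kbar ℓ} (hζ : ζ ^ m = 1) :
    ζ ∈ intSubring ℓ (muField ℓ m) :=
  ⟨mem_muField ℓ hζ, (norm_root ℓ hm0 hζ).le⟩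

/-- a primitive root of unity generates: `σ` fixes `ζ` iff it fixes `ℚ_ℓ(μ_m)` pointwise. -/
theorem fixes_muField_iff {m : ℕ} (hm0 : m ≠ 0) {ζ : Kbar ℓ} (hζ : IsPrimitiveRoot ζ m) (σ : Gp ℓ) :
    (∀ e ∈ muField ℓ m, σ e = e) ↔ σ ζ = ζ := by
  constructor
  · intro h
    exact h ζ (mem_muField ℓ hζ.pow_eq_one)
  · intro h
    haveI : NeZero m := ⟨hm0⟩
    have hle : muField ℓ m ≤ IntermediateField.fixedField (Subgroup.zpowers σ) := by
      rw [muField, IntermediateField.adjoin_le_iff]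
      intro η hη
      obtain ⟨i, -, rfl⟩ := hζ.eq_pow_of_pow_eq_one hη
      rw [SetLike.mem_coe, IntermediateField.mem_fixedField_iff]
      intro f hf
      have hσ : σ ∈ MulAction.stabilizer (Gp ℓ) (ζ ^ i) := by
        rw [MulAction.mem_stabilizer_iff, AlgEquiv.smul_def, map_pow, h]
      have := (Subgroup.zpowers_le.mpr hσ) hf
      rwa [MulAction.mem_stabilizer_iff] at this
    intro e he
    have := hle he
    rw [IntermediateField.mem_fixedField_iff] at this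
    exact this σ (Subgroup.mem_zpowers σ)

/-! ### The dual pair -/

open Classical in
theorem exists_dual_pair {m : ℕ} (hm : ¬ ℓ ∣ m) {ζ : Kbar ℓ} (hζ : IsPrimitiveRoot ζ m) :
    ∃ (n : ℕ) (a b : Fin n → Kbar ℓ),
      (∀ i, a i ∈ intSubring ℓ (muField ℓ m)) ∧ (∀ i, b i ∈ intSubring ℓ (muField ℓ m)) ∧
      ∀ σ : Gp ℓ, ∑ i, a i * σ (b i) = if σ ζ = ζ then 1 else 0 := by
  have hm0 : m ≠ 0 := ne_zero_of_not_dvd ℓ hm
  have hmpos : 0 < m := Nat.pos_of_ne_zero hm0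
  obtain ⟨n, a, ha, hsum⟩ := exists_lagrange (intSubring ℓ (muField ℓ m))
    (Polynomial.nthRootsFinset m (1 : Kbar ℓ)) ζ
    (fun η hη => root_mem_intSubring ℓ hm0 ((Polynomial.mem_nthRootsFinset hmpos _).mp hη))
    (fun η hη hne => by
      have hη' := (Polynomial.mem_nthRootsFinset hmpos _).mp hη
      have h1 : ‖ζ - η‖ = 1 := norm_sub_root ℓ hm hζ.pow_eq_one hη' (Ne.symm hne)
      refine ⟨(muField ℓ m).inv_mem ((muField ℓ m).sub_mem (mem_muField ℓ hζ.pow_eq_one)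
        (mem_muField ℓ hη')), ?_⟩
      rw [norm_inv, h1, inv_one])
  refine ⟨n, a, fun i => ζ ^ (i : ℕ), ha,
    fun i => (intSubring ℓ (muField ℓ m)).pow_mem (root_mem_intSubring ℓ hm0 hζ.pow_eq_one) _, ?_⟩
  intro σ
  have hσζ : σ ζ ∈ Polynomial.nthRootsFinset m (1 : Kbar ℓ) := by
    rw [Polynomial.mem_nthRootsFinset hmpos, ← map_pow, hζ.pow_eq_one, map_one]
  have := hsum (σ ζ) hσζ
  simp only [map_pow]
  exact this

/-! ### The stabiliser of `ζ` has finite index -/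

theorem finite_quotient_stabilizer {m : ℕ} (hm0 : m ≠ 0) {ζ : Kbar ℓ} (hζ : ζ ^ m = 1) :
    Finite (Gp ℓ ⧸ MulAction.stabilizer (Gp ℓ) ζ) := by
  have hfin : (MulAction.orbit (Gp ℓ) ζ).Finite := by
    refine (finite_roots ℓ hm0).subset ?_
    rintro _ ⟨σ, rfl⟩
    show (σ • ζ) ^ m = 1
    rw [AlgEquiv.smul_def, ← map_pow, hζ, map_one]
  haveI := hfin.to_subtype
  exact Finite.of_equiv _ (MulAction.orbitEquivQuotientStabilizer (Gp ℓ) ζ)

/-! ### The two bricks -/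

/-- the action of `G_ℓ` on `X` as a `MulAction`. -/
@[reducible] def mulActionOf {X : Type} (actX : Gp ℓ → X → X) (h1 : ∀ x, actX 1 x = x)
    (hmul : ∀ σ τ x, actX (σ * τ) x = actX σ (actX τ x)) : MulAction (Gp ℓ) X where
  smul := actX
  one_smul := h1
  mul_smul := hmul

/-- **(b) unramified Galois descent.** -/
theorem unramDescent : UnramDescent ℓ := by
  classical
  intro m hm X actX h1 hmul B' hscal hstab htriv b hb
  have hm0 : m ≠ 0 := ne_zero_of_not_dvd ℓ hm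
  haveI : NeZero (m : Kbar ℓ) := ⟨by exact_mod_cast hm0⟩
  obtain ⟨ζ, hζ⟩ := HasEnoughRootsOfUnity.exists_primitiveRoot (Kbar ℓ) m
  obtain ⟨n, a, c, ha, hc, hac⟩ := exists_dual_pair ℓ hm hζ
  letI : MulAction (Gp ℓ) X := mulActionOf ℓ actX h1 hmul
  let H : Subgroup (Gp ℓ) := MulAction.stabilizer (Gp ℓ) ζ
  haveI : Finite (Gp ℓ ⧸ H) := finite_quotient_stabilizer ℓ hm0 hζ.pow_eq_one
  letI : Fintype (Gp ℓ ⧸ H) := Fintype.ofFinite _
  have hgf : ∀ (σ : Gp ℓ) (f : X → Kbar ℓ), gf σ f = galFun ℓ actX σ f := fun _ _ => rfl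
  have hstab' : ∀ σ : Gp ℓ, ∀ f ∈ B', gf σ f ∈ B' := fun σ f hf => hstab σ f hf
  have htriv' : ∀ h ∈ H, ∀ f ∈ B', gf h f = f := by
    intro h hh f hf
    refine htriv h ((fixes_muField_iff ℓ hm0 hζ h).mpr ?_) f hf
    exact MulAction.mem_stabilizer_iff.mp hh
  have hac' : ∀ σ : Gp ℓ, ∑ i, a i * (σ • c i) = if σ ∈ H then 1 else 0 := by
    intro σ
    have := hac σ
    simp only [AlgEquiv.smul_def]
    rw [this]
    simp only [H, MulAction.mem_stabilizer_iff, AlgEquiv.smul_def]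
  have hcb : ∀ i, (fun x => c i * b x) ∈ B' := fun i => hscal (c i) (hc i) b hb
  refine ⟨Fin n, inferInstance, a, fun i => tr H (fun x => c i * b x), ha,
    fun i => tr_mem H B' hstab' (hcb i), fun i σ => ?_, fun x => ?_⟩
  · rw [← hgf]
    exact gf_tr H B' hstab' htriv' σ (hcb i)
  · exact eq_sum_tr H B' hstab' htriv' a c hac' hb x

/-- an element of `K̄` fixed by `G_ℓ` of norm `≤ 1` comes from `ℤ_ℓ`. -/
theorem exists_padicInt_of_fixed (y : Kbar ℓ) (hfix : ∀ σ : Gp ℓ, σ y = y) (hy : ‖y‖ ≤ 1) :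
    ∃ z : ℤ_[ℓ], algebraMap ℤ_[ℓ] (Kbar ℓ) z = y := by
  obtain ⟨q, rfl⟩ := (InfiniteGalois.mem_range_algebraMap_iff_fixed (k := ℚ_[ℓ])
    (K := Kbar ℓ) y).mpr hfix
  rw [PadicAlgCl.norm_extends] at hy
  obtain ⟨z, hz⟩ : ∃ z : ℤ_[ℓ], (z : ℚ_[ℓ]) = q := ⟨⟨q, hy⟩, rfl⟩
  refine ⟨z, ?_⟩
  rw [IsScalarTower.algebraMap_apply ℤ_[ℓ] ℚ_[ℓ] (Kbar ℓ), ← hz]
  rfl

/-- **(b) trace one.** -/
theorem traceOne : TraceOne ℓ := by
  classical
  intro m hm X actX ι _ a w b ha hw hb hbw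
  have hm0 : m ≠ 0 := ne_zero_of_not_dvd ℓ hm
  haveI : NeZero (m : Kbar ℓ) := ⟨by exact_mod_cast hm0⟩
  obtain ⟨ζ, hζ⟩ := HasEnoughRootsOfUnity.exists_primitiveRoot (Kbar ℓ) m
  obtain ⟨n, a', c, ha', hc, hac⟩ := exists_dual_pair ℓ hm hζ
  letI : SMul (Gp ℓ) X := ⟨actX⟩
  let H : Subgroup (Gp ℓ) := MulAction.stabilizer (Gp ℓ) ζ
  haveI : Finite (Gp ℓ ⧸ H) := finite_quotient_stabilizer ℓ hm0 hζ.pow_eq_one
  letI : Fintype (Gp ℓ ⧸ H) := Fintype.ofFinite _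
  have hac' : ∀ σ : Gp ℓ, ∑ i, a' i * (σ • c i) = if σ ∈ H then 1 else 0 := by
    intro σ
    have := hac σ
    simp only [AlgEquiv.smul_def]
    rw [this]
    simp only [H, MulAction.mem_stabilizer_iff, AlgEquiv.smul_def]
  -- elements of the field `ℚ_ℓ(μ_m)` are fixed by `H`
  have hHfix : ∀ y ∈ muField ℓ m, ∀ h ∈ H, h • y = y := by
    intro y hy h hh
    exact (fixes_muField_iff ℓ hm0 hζ h).mpr (MulAction.mem_stabilizer_iff.mp hh) y hy
  -- traces of integers are in `ℤ_ℓ`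
  have htrZ : ∀ y ∈ intSubring ℓ (muField ℓ m), ∃ z : ℤ_[ℓ],
      algebraMap ℤ_[ℓ] (Kbar ℓ) z = trS H y := by
    intro y hy
    refine exists_padicInt_of_fixed ℓ _ (fun σ => smul_trS H σ (hHfix y hy.1)) ?_
    unfold trS
    refine IsUltrametricDist.norm_sum_le_of_forall_le_of_nonneg zero_le_one fun q _ => ?_
    rw [AlgEquiv.smul_def, norm_gal]
    exact hy.2
  -- an element of trace one
  have hone := sum_mul_trS H a' c hac'
  have hex : ∃ r ∈ intSubring ℓ (muField ℓ m), trS H r = 1 := by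
    by_contra hno
    have hnormZ : ∀ z : ℤ_[ℓ], ‖algebraMap ℤ_[ℓ] (Kbar ℓ) z‖ = ‖z‖ := by
      intro z
      rw [IsScalarTower.algebraMap_apply ℤ_[ℓ] ℚ_[ℓ] (Kbar ℓ), PadicAlgCl.norm_extends]
      rfl
    have hsmall : ∀ i, ‖trS H (c i)‖ ≤ (ℓ : ℝ)⁻¹ := by
      intro i
      obtain ⟨z, hz⟩ := htrZ (c i) (hc i)
      by_contra hge
      have hz1 : ‖z‖ = 1 := by
        apply le_antisymm z.norm_le_one
        by_contra hlt
        have hdvd := (PadicInt.norm_lt_one_iff_dvd z).mp (lt_of_not_ge hlt)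
        obtain ⟨w, rfl⟩ := hdvd
        apply hge
        rw [← hz, hnormZ, norm_mul, PadicInt.norm_p]
        exact mul_le_of_le_one_right (by positivity) w.norm_le_one
      have hu : IsUnit z := PadicInt.isUnit_iff.mpr hz1
      obtain ⟨u, rfl⟩ := hu
      apply hno
      refine ⟨algebraMap ℤ_[ℓ] (Kbar ℓ) ((u⁻¹ : ℤ_[ℓ]ˣ) : ℤ_[ℓ]) * c i, ?_, ?_⟩
      · refine (intSubring ℓ (muField ℓ m)).mul_mem ⟨?_, ?_⟩ (hc i)
        · rw [IsScalarTower.algebraMap_apply ℤ_[ℓ] ℚ_[ℓ] (Kbar ℓ)]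
          exact (muField ℓ m).algebraMap_mem _
        · rw [hnormZ]
          exact PadicInt.norm_le_one _
      · rw [trS_mul_of_fixed H _ _ (fun σ => by
          rw [AlgEquiv.smul_def, IsScalarTower.algebraMap_apply ℤ_[ℓ] ℚ_[ℓ] (Kbar ℓ),
            AlgEquiv.commutes]), ← hz, ← map_mul, Units.inv_mul, map_one]
    have hℓ1 : (ℓ : ℝ)⁻¹ < 1 := by
      have : (1 : ℝ) < ℓ := by exact_mod_cast (Fact.out : ℓ.Prime).one_lt
      exact inv_lt_one_of_one_lt₀ this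
    have : ‖(1 : Kbar ℓ)‖ ≤ (ℓ : ℝ)⁻¹ := by
      rw [← hone]
      refine IsUltrametricDist.norm_sum_le_of_forall_le_of_nonneg (by positivity) fun i _ => ?_
      rw [norm_mul]
      calc ‖a' i‖ * ‖trS H (c i)‖ ≤ 1 * (ℓ : ℝ)⁻¹ :=
            mul_le_mul (ha' i).2 (hsmall i) (norm_nonneg _) zero_le_one
        _ = (ℓ : ℝ)⁻¹ := one_mul _
    rw [norm_one] at this
    exact absurd this (not_le.mpr hℓ1)
  obtain ⟨r, hr, hr1⟩ := hex
  choose z hz using fun i => htrZ (r * a i) ((intSubring ℓ (muField ℓ m)).mul_mem hr (ha i))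
  refine ⟨z, fun x => ?_⟩
  simp only [hz]
  exact eq_sum_trS H a w b r hr1 hw hb hbw x

end Fermat.Agent.T1.Descent83.Unram
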